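/-
PROJECT R (S43), block T1, brick (N)_n, file Node/Ord (helper19): THE NODE ORDERS OF AN `n`-TORSION
CLASS OF `J₀(M l)` AT `A ∣ l`, FOR AN ARBITRARY TORSION ORDER `n` (the twin of
`S44/Core/NodeOrd`, where the torsion order was the frame prime itself).

Frame: `F : ChartFrame hA hlM` of `S33/X0/Frame` at a prime `l ∤ M` (unconditional at every prime).
For `x = [D]` with `n D = div u`, `u` a unit of the first Gauss valuation ring, the node order of
`x` at a node `e` is the order of the reduction of `u` at the point `e1 e` of the first component,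
read modulo `n`.

* `HasNodeOrdN F n x a` : the vocabulary (`a : Node F → ZMod n`);
* `exists_hasNodeOrdN`, `HasNodeOrdN.unique`, `.zero`, `.add`, `.neg`, `.sub`, `.nsmul_eq_zero`,
  `.smul` (invariance under the inertia group), `finPartN`, `oneUnit_le_finPartN`.

The abstract lemmas (`dvd_ord_red_sub`, `exists_unit_smul`, ...) and `Node F` are those of
`S44/Core/NodeOrd` (already generic in the torsion order); nothing of main is modified.
-/
import Fermat.Agent.S44.Core.NodeOrd

set_option autoImplicit false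
set_option linter.unusedSectionVars false
set_option linter.unusedVariables false
set_option linter.style.haveILetI false
set_option synthInstance.maxHeartbeats 400000

noncomputable section

namespace Fermat.Agent.S43.T1.Node.Ord

open ModularCurve AlgebraicCurve IsLocalRing
open Fermat.Agent.S34.NodalDefs Fermat.Agent.S34.Z1X0 Fermat.Agent.S34.Z1Abstract
open Fermat.Agent.S34.CoreZX0Datum
open Fermat.Agent.S33.X0.Frame Fermat.Agent.S33.KP.OneUnit
open Fermat.Agent.S44.Core.NodeOrd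

local notation "Qbar" => AlgebraicClosure ℚ

attribute [local instance 2000] Fermat.Agent.S34.EulerX0.algResFk

variable {l : ℕ} [hl : Fact l.Prime] {M : ℕ} [NeZero M] {A : ValuationSubring Qbar} [NeZero l]
variable {hA : A.LiesOverPrime l} {hlM : ¬ l ∣ M}

/-- local instance: principal divisors on `E` -/
local instance instPDBar (N : ℕ) [NeZero N] :
    HasPrincipalDivisors Qbar ↥(modularFunctionFieldBar N) :=
  Fermat.Agent.S18.A.Instances.hasPrincipalDivisors_bar N

local instance instNeZeroMul : NeZero (M * l) :=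
  ⟨Nat.mul_ne_zero (NeZero.ne M) (NeZero.ne l)⟩

/-- `a` is the vector of node orders modulo `n` of the class `x`: `x = [D]`, `n D = div u` with `u`
a unit of the first Gauss ring, and `a e` is the order at `e1 e` of the reduction of `u`,
modulo `n`. -/
def HasNodeOrdN (F : ChartFrame hA hlM) (n : ℕ) (x : JZero (M * l)) (a : Node F → ZMod n) : Prop :=
  ∃ (D : Divisor.degZero (K := Qbar) (F := ↥(modularFunctionFieldBar (M * l))))
    (u : (F.X.N.R1.O)ˣ), Pic0.mk D = x ∧
    (∀ P : Place Qbar ↥(modularFunctionFieldBar (M * l)),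
      (n : ℤ) * (D : Divisor Qbar ↥(modularFunctionFieldBar (M * l))) P =
        P.ord (((u : F.X.N.R1.O) : ↥(modularFunctionFieldBar (M * l))))) ∧
    ∀ e : Node F, a e = (((F.X.N.e1 e).ord (F.X.N.R1.red (u : F.X.N.R1.O)) : ℤ) : ZMod n)

variable {F : ChartFrame hA hlM} {n : ℕ}

/-- a class with node orders modulo `n` is killed by `n` -/
theorem HasNodeOrdN.nsmul_eq_zero {x : JZero (M * l)} {a : Node F → ZMod n}
    (h : HasNodeOrdN F n x a) : n • x = 0 := by
  obtain ⟨D, u, rfl, hD, -⟩ := h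
  have h1 : n • Pic0.mk D = Pic0.mk (n • D) := rfl
  rw [h1]
  refine Fermat.Agent.S34.KummerZ.mk_eq_zero_of_isDivOf
    (f := ((u : F.X.N.R1.O) : ↥(modularFunctionFieldBar (M * l))))
    (Fermat.Agent.S34.NodalDisc.coe_unit_ne_zero F.X.N.R1.toBranch u) (fun w => ?_)
  rw [AddSubgroup.coe_nsmul, Finsupp.smul_apply, nsmul_eq_mul, ← hD w]

/-- **existence**: every `n`-torsion class has node orders modulo `n` -/
theorem exists_hasNodeOrdN (F : ChartFrame hA hlM) {n : ℕ} {x : JZero (M * l)} (hx : n • x = 0) :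
    ∃ a : Node F → ZMod n, HasNodeOrdN F n x a := by
  have hx' : (n : ℤ) • x = 0 := by rw [natCast_zsmul]; exact hx
  obtain ⟨D, f, rfl, hf, hD⟩ := Fermat.Agent.S34.KummerZ.exists_mk_of_zsmul_eq_zero hx'
  obtain ⟨c, hc, u, hfu⟩ := F.X.N.R1.exists_const_mul_unit f hf
  refine ⟨fun e => (((F.X.N.e1 e).ord (F.X.N.R1.red (u : F.X.N.R1.O)) : ℤ) : ZMod n),
    D, u, rfl, fun P => ?_, fun e => rfl⟩
  have hu0 := Fermat.Agent.S34.NodalDisc.coe_unit_ne_zero F.X.N.R1.toBranch u
  have hcF : algebraMap Qbar ↥(modularFunctionFieldBar (M * l)) c ≠ 0 := (map_ne_zero _).mpr hc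
  have h1 := hD P
  rw [hfu, P.ord_mul hcF hu0, Fermat.Agent.S34.KummerZ.ord_algebraMap P hc, zero_add] at h1
  exact h1.symm

/-- **uniqueness**: the node orders modulo `n` depend only on the class -/
theorem HasNodeOrdN.unique {x : JZero (M * l)} {a a' : Node F → ZMod n}
    (h : HasNodeOrdN F n x a) (h' : HasNodeOrdN F n x a') : a = a' := by
  obtain ⟨D, u, hDx, hD, ha⟩ := h
  obtain ⟨D', u', hD'x, hD', ha'⟩ := h'
  have hmk : Pic0.mk D = Pic0.mk D' := by rw [hDx, hD'x]
  have hmem : -D + D' ∈ (Divisor.principal (K := Qbar)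
      (F := ↥(modularFunctionFieldBar (M * l)))).addSubgroupOf
      (Divisor.degZero (K := Qbar) (F := ↥(modularFunctionFieldBar (M * l)))) :=
    QuotientAddGroup.eq.mp hmk
  rw [AddSubgroup.mem_addSubgroupOf] at hmem
  obtain ⟨h, hh, hdiv⟩ := hmem
  have hdiv' : ∀ P : Place Qbar ↥(modularFunctionFieldBar (M * l)),
      P.ord h = (D' : Divisor Qbar ↥(modularFunctionFieldBar (M * l))) P -
        (D : Divisor Qbar ↥(modularFunctionFieldBar (M * l))) P := by
    intro P
    rw [← hdiv P, AddSubgroup.coe_add, AddSubgroup.coe_neg, Finsupp.add_apply, Finsupp.neg_apply]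
    ring
  funext e
  obtain ⟨m, hm⟩ := dvd_ord_red_sub F.X.N.R1.toBranch
    (Fermat.Agent.S34.CoreZX0OfPrincipal.exists_const_of_ord_eq_zero (M * l)) n
    (D : Divisor Qbar ↥(modularFunctionFieldBar (M * l)))
    (D' : Divisor Qbar ↥(modularFunctionFieldBar (M * l))) u u' hD hD' h hh hdiv' (F.X.N.e1 e)
  have hm' : (F.X.N.e1 e).ord (F.X.N.R1.red (u' : F.X.N.R1.O)) =
      (F.X.N.e1 e).ord (F.X.N.R1.red (u : F.X.N.R1.O)) + (n : ℤ) * m := by
    linarith
  rw [ha e, ha' e, hm']
  push_cast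
  rw [ZMod.natCast_self, zero_mul, add_zero]

/-- the zero class has node orders `0` -/
theorem HasNodeOrdN.zero (F : ChartFrame hA hlM) (n : ℕ) : HasNodeOrdN F n 0 0 := by
  refine ⟨0, 1, rfl, fun P => ?_, fun e => ?_⟩
  · rw [ord_coe_one F.X.N.R1.toBranch P]
    simp
  · rw [ord_red_one F.X.N.R1.toBranch (F.X.N.e1 e)]
    simp

/-- additivity -/
theorem HasNodeOrdN.add {x y : JZero (M * l)} {a b : Node F → ZMod n}
    (hx : HasNodeOrdN F n x a) (hy : HasNodeOrdN F n y b) : HasNodeOrdN F n (x + y) (a + b) := by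
  obtain ⟨D, u, rfl, hD, ha⟩ := hx
  obtain ⟨D', u', rfl, hD', hb⟩ := hy
  refine ⟨D + D', u * u', (Pic0.mk_add D D'), fun P => ?_, fun e => ?_⟩
  · rw [ord_coe_mul F.X.N.R1.toBranch u u' P, ← hD P, ← hD' P, AddSubgroup.coe_add,
      Finsupp.add_apply, mul_add]
  · rw [Pi.add_apply, ha e, hb e, ord_red_mul F.X.N.R1.toBranch u u' (F.X.N.e1 e)]
    push_cast
    rfl

/-- negation -/
theorem HasNodeOrdN.neg {x : JZero (M * l)} {a : Node F → ZMod n}
    (hx : HasNodeOrdN F n x a) : HasNodeOrdN F n (-x) (-a) := by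
  obtain ⟨D, u, rfl, hD, ha⟩ := hx
  refine ⟨-D, u⁻¹, rfl, fun P => ?_, fun e => ?_⟩
  · rw [ord_coe_inv F.X.N.R1.toBranch u P, ← hD P, AddSubgroup.coe_neg, Finsupp.neg_apply,
      mul_neg]
  · rw [Pi.neg_apply, ha e, ord_red_inv F.X.N.R1.toBranch u (F.X.N.e1 e)]
    push_cast
    rfl

/-- subtraction -/
theorem HasNodeOrdN.sub {x y : JZero (M * l)} {a b : Node F → ZMod n}
    (hx : HasNodeOrdN F n x a) (hy : HasNodeOrdN F n y b) : HasNodeOrdN F n (x - y) (a - b) := by
  rw [sub_eq_add_neg, sub_eq_add_neg]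
  exact hx.add hy.neg

/-- **invariance under the inertia group** -/
theorem HasNodeOrdN.smul {σ : Qbar ≃ₐ[ℚ] Qbar} (hσ : σ ∈ A.inertiaSubgroupIn ℚ)
    {x : JZero (M * l)} {a : Node F → ZMod n} (hx : HasNodeOrdN F n x a) :
    HasNodeOrdN F n (σ • x) a := by
  obtain ⟨D, u, rfl, hD, ha⟩ := hx
  obtain ⟨g, hg⟩ : ∃ g : SemilinearAut Qbar ↥(modularFunctionFieldBar (M * l)),
      g = arithmeticGalois (modularFunctionFieldFull (M * l)) σ := ⟨_, rfl⟩
  have hm1 : ∀ y : ↥(modularFunctionFieldBar (M * l)), y ∈ F.X.N.R1.O → g • y ∈ F.X.N.R1.O := by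
    intro y hy
    rw [F.X.O1_eq] at hy ⊢
    rw [hg]
    exact (smul_mem_V1X0_iff hA hlM hσ y).mpr hy
  have hs1 : ∀ y : ↥(modularFunctionFieldBar (M * l)), y ∈ F.X.N.R1.O →
      g • y - y ∈ F.X.N.R1.O.nonunits := by
    intro y hy
    rw [F.X.O1_eq] at hy ⊢
    rw [hg]
    exact smul_sub_mem_nonunits₁ hA hlM hσ hy
  obtain ⟨v, hv, hvred⟩ := exists_unit_smul F.X.N.R1.toBranch g hm1 hs1 u
  refine ⟨SemilinearAut.degZeroSMulHom g D, v, ?_, fun P => ?_, fun e => ?_⟩
  · rw [galois_smul_pic0_def, ← hg, SemilinearAut.pic0_smul_mk]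
  · have h1 := hD (g⁻¹ • P)
    rw [hv, Fermat.Agent.S34.KummerZ.ord_smul_eq g P, ← h1, SemilinearAut.coe_degZeroSMulHom,
      SemilinearAut.divisor_smul_apply]
  · rw [hvred]
    exact ha e

/-- **the finite part modulo `n`**: the `n`-torsion classes all of whose node orders vanish -/
def finPartN (F : ChartFrame hA hlM) (n : ℕ) : AddSubgroup (JZero (M * l)) where
  carrier := {x | HasNodeOrdN F n x 0}
  zero_mem' := HasNodeOrdN.zero F n
  add_mem' := fun {x y} hx hy => by
    have h := HasNodeOrdN.add hx hy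
    rwa [add_zero] at h
  neg_mem' := fun {x} hx => by
    have h := HasNodeOrdN.neg hx
    rwa [neg_zero] at h

theorem mem_finPartN {x : JZero (M * l)} : x ∈ finPartN F n ↔ HasNodeOrdN F n x 0 := Iff.rfl

theorem mem_finPartN_iff {x : JZero (M * l)} :
    x ∈ finPartN F n ↔ n • x = 0 ∧ HasNodeOrdN F n x 0 :=
  ⟨fun h => ⟨h.nsmul_eq_zero, h⟩, fun h => h.2⟩

/-- the finite part is stable under the inertia group -/
theorem smul_mem_finPartN {σ : Qbar ≃ₐ[ℚ] Qbar} (hσ : σ ∈ A.inertiaSubgroupIn ℚ)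
    {x : JZero (M * l)} (hx : x ∈ finPartN F n) : σ • x ∈ finPartN F n :=
  HasNodeOrdN.smul hσ hx

/-- an `n`-torsion class with node orders `a` lies in the finite part iff `a = 0` -/
theorem mem_finPartN_iff_eq_zero {x : JZero (M * l)} {a : Node F → ZMod n}
    (h : HasNodeOrdN F n x a) : x ∈ finPartN F n ↔ a = 0 :=
  ⟨fun h0 => h.unique h0, fun h0 => by rw [h0] at h; exact h⟩

/-- the `1`-unit classes of level `n` lie in the finite part modulo `n` -/
theorem oneUnit_le_finPartN (F : ChartFrame hA hlM) (n : ℕ) :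
    oneUnit hA hlM n ≤ finPartN F n := by
  intro y hy
  obtain ⟨D, u, rfl, hu, h1, h2, hD⟩ := exists_strict_of_mem_oneUnit hA hlM hy
  have h1' : IsOneUnit F.X.N.R1.O u := by rw [F.X.O1_eq]; exact h1
  obtain ⟨v, hv, hvred⟩ := exists_unit_of_isOneUnit F.X.N.R1.toBranch h1'
  refine ⟨D, v, rfl, fun P => ?_, fun e => ?_⟩
  · rw [hv]
    exact (hD P).symm
  · rw [hvred, Place.ord_one]
    simp

end Fermat.Agent.S43.T1.Node.Ord
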