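/-
PROJECT R (S43), block T1, brick (N)_n, file Node/Datum (helper19): THE EXPORT `w_e a_e(x) = const`
MODULO `n`, abstract form on the two end valuations, WITH THE TORSION ORDER `n` SEPARATED FROM THE
FRAME PRIME `l` (the twin of `S44/Core/Export` + `S44/Core/ExportTube`, where both were `p`).

Frame: `(L, A)` with residue map `π : A →+* k`, two Gauss branches `R1 R2` of `FL`, a constant
`ϖ0 : L` (non-zero non-unit of `A`) with `l = ϖ0 ^ E * unit`, and `u : R1.Oˣ` (the function with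
`n D = div u`, normalised at the first Gauss valuation).  At every node `e` a `NodeDatumN`:
the point `Q1`, the tube ring `S` with the weak gluing, the coordinate `ξ` (`V₂ ξ = V₂ (l ^ w)`),
the two norm polynomials evaluated at `ξ` and `g = u / (Fp / Fm) ^ n`, a unit of the tube.

With `m := ord_{Q1} (red₁ g)`: `g / ξ ^ m` is a unit at BOTH Gauss valuations (slope lemma), so
`ord₂ u = m w E + n μ` in units of `v(ϖ0)` (`NodeDatumN.hasOrd_two`) and
`ord_{Q1} (red₁ u) = m` modulo `n` (`NodeDatumN.ord_red_eq`).  Comparing two nodes: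

* `exists_const` : `∃ c : ZMod n, ∀ e, (w e : ZMod n) * (E : ZMod n) * (ord_{Q1 e} (red₁ u)) = c`;
* `exists_const_one` : the case `E = 1` (the constants of the inertia field: `ϖ0 = l`);
* `exists_nodeDatumN` : the node datum from a tube function (twin of `ExportTube.exists_nodeDatum`).

Mathlib + `S34/NodalDisc` + `S44/Core/{Break, Slope, ExportArith, Export (one-branch part),
ExportTube (tube ring), NodeFrame}` of main; nothing of main is modified.
-/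
import Fermat.Agent.S44.Core.ExportTube

set_option autoImplicit false
set_option linter.unusedSectionVars false
set_option linter.unusedVariables false

noncomputable section

namespace Fermat.Agent.S43.T1.Node.Datum

open AlgebraicCurve Fermat.Agent.S24.Ord Fermat.Agent.S34.NodalDefs Fermat.Agent.S34.NodalDisc
open Fermat.Agent.S44.Core.Break Fermat.Agent.S44.Core.ExportArith
open Fermat.Agent.S44.Core.Export Fermat.Agent.S44.Core.ExportTube Fermat.Agent.S44.Core.NodeFrame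

variable {L : Type*} [Field L] {k : Type*} [Field k] {A : ValuationSubring L} {π : A →+* k}
variable {FL : Type*} [Field FL] [Algebra L FL]
variable {F1 : Type*} [Field F1] [Algebra k F1] {F2 : Type*} [Field F2] [Algebra k F2]

/-- **The data at one node seen by the export**, torsion order `n`, frame prime `l`. -/
structure NodeDatumN (R1 : Branch A π FL F1) (R2 : Branch A π FL F2) (ϖ0 : L) (l n : ℕ)
    (u : R1.Oˣ) where
  /-- the point of the first component -/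
  Q1 : Place k F1
  /-- the functions of `O₁` regular on the tube -/
  S : Subring FL
  /-- the coordinate -/
  ξ : FL
  /-- the thickness, in units of `v(l)` -/
  w : ℕ
  /-- the norm polynomial of the zeros, evaluated at `ξ` -/
  Fp : FL
  /-- the norm polynomial of the poles, evaluated at `ξ` -/
  Fm : FL
  /-- the constant term of the first polynomial -/
  cp : L
  /-- the constant term of the second polynomial -/
  cm : L
  /-- the order of `cp` -/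
  jp : ℤ
  /-- the order of `cm` -/
  jm : ℤ
  S_le : ∀ y ∈ S, y ∈ R1.O
  glue : ∀ (y : FL) (hy : y ∈ S), y ∈ R2.O.nonunits →
    R1.red ⟨y, S_le y hy⟩ = 0 ∨ 0 < Q1.ord (R1.red ⟨y, S_le y hy⟩)
  ξ_mem : ξ ∈ S
  ξ_inv_mem : ξ⁻¹ ∈ S
  ξ_ne : ξ ≠ 0
  ξ_ord : Q1.ord (R1.red ⟨ξ, S_le ξ ξ_mem⟩) = 1
  ξ_val : R2.O.valuation ξ = R2.O.valuation (algebraMap L FL ((l : L) ^ w))
  Fp_one : UnitA R1.O Fp
  Fm_one : UnitA R1.O Fm
  Fp_two : UnitA R2.O (Fp / algebraMap L FL cp)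
  Fm_two : UnitA R2.O (Fm / algebraMap L FL cm)
  cp_eq : ∃ β, UnitA A β ∧ cp = ϖ0 ^ jp * β
  cm_eq : ∃ β, UnitA A β ∧ cm = ϖ0 ^ jm * β
  g_mem : ((u : R1.O) : FL) / (Fp / Fm) ^ n ∈ S
  g_inv_mem : (((u : R1.O) : FL) / (Fp / Fm) ^ n)⁻¹ ∈ S

/-- the coercion of an integral power of a unit -/
theorem coe_zpow_unit' (R1 : Branch A π FL F1) (x : R1.Oˣ) (m : ℤ) :
    ((((x ^ m : R1.Oˣ)) : R1.O) : FL) = (((x : R1.O)) : FL) ^ m := by
  induction m using Int.induction_on with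
  | zero => rw [zpow_zero, zpow_zero, Units.val_one, OneMemClass.coe_one]
  | succ i ih =>
    rw [zpow_add_one, Units.val_mul, MulMemClass.coe_mul, ih,
      zpow_add_one₀ (coe_unit_ne_zero R1 x)]
  | pred i ih =>
    rw [zpow_sub_one, Units.val_mul, MulMemClass.coe_mul, ih, coe_inv_unit R1,
      zpow_sub_one₀ (coe_unit_ne_zero R1 x)]

namespace NodeDatumN

variable {R1 : Branch A π FL F1} {R2 : Branch A π FL F2} {ϖ0 : L} {l n : ℕ} {u : R1.Oˣ}
variable (d : NodeDatumN R1 R2 ϖ0 l n u)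

/-- the moment at the node -/
def μ : ℤ := d.jp - d.jm

/-- the coordinate as a unit of `O₁` -/
def ξU : R1.Oˣ :=
  unitOf R1 (unitA_iff.2 ⟨d.ξ_ne, d.S_le _ d.ξ_mem, d.S_le _ d.ξ_inv_mem⟩)

/-- the quotient `Fp / Fm` as a unit of `O₁` -/
def FU : R1.Oˣ := unitOf R1 (d.Fp_one.div d.Fm_one)

/-- `g = u / (Fp / Fm) ^ n` as a unit of `O₁` -/
def gU : R1.Oˣ := u * (d.FU ^ n)⁻¹

/-- the order at the node of the first reduction of `g` -/
def m : ℤ := d.Q1.ord (R1.red (d.gU : R1.O))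

/-- the unit of the tube `g / ξ ^ m` -/
def vU : R1.Oˣ := d.gU * (d.ξU ^ d.m)⁻¹

theorem coe_ξU : (((d.ξU : R1.Oˣ) : R1.O) : FL) = d.ξ := rfl

theorem coe_FU : (((d.FU : R1.Oˣ) : R1.O) : FL) = d.Fp / d.Fm := rfl

theorem coe_gU : (((d.gU : R1.Oˣ) : R1.O) : FL) = ((u : R1.O) : FL) / (d.Fp / d.Fm) ^ n := by
  rw [gU, Units.val_mul, MulMemClass.coe_mul, coe_inv_unit R1, Units.val_pow_eq_pow_val,
    SubmonoidClass.coe_pow, coe_FU]
  exact (div_eq_mul_inv _ _).symm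

theorem coe_vU : (((d.vU : R1.Oˣ) : R1.O) : FL) =
    ((u : R1.O) : FL) / (d.Fp / d.Fm) ^ n * (d.ξ ^ d.m)⁻¹ := by
  rw [vU, Units.val_mul, MulMemClass.coe_mul, coe_inv_unit R1, coe_zpow_unit', coe_gU, coe_ξU]

/-- integral powers of the coordinate are regular on the tube -/
theorem ξ_zpow_mem (j : ℤ) : d.ξ ^ j ∈ d.S := by
  obtain ⟨i, rfl | rfl⟩ := j.eq_nat_or_neg
  · rw [zpow_natCast]
    exact d.S.pow_mem d.ξ_mem i
  · rw [zpow_neg, zpow_natCast, ← inv_pow]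
    exact d.S.pow_mem d.ξ_inv_mem i

theorem vU_mem : (((d.vU : R1.Oˣ) : R1.O) : FL) ∈ d.S := by
  rw [coe_vU, ← zpow_neg]
  exact d.S.mul_mem d.g_mem (d.ξ_zpow_mem _)

theorem vU_inv_mem : ((((d.vU : R1.Oˣ) : R1.O) : FL))⁻¹ ∈ d.S := by
  rw [coe_vU, mul_inv, inv_inv]
  exact d.S.mul_mem d.g_inv_mem (d.ξ_zpow_mem _)

/-- the first reduction of the coordinate has order `1` at the node -/
theorem ord_red_ξU : d.Q1.ord (R1.red (d.ξU : R1.O)) = 1 := d.ξ_ord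

/-- the first reduction of `g / ξ ^ m` has order `0` at the node -/
theorem ord_red_vU : d.Q1.ord (R1.red (d.vU : R1.O)) = 0 := by
  rw [vU, ord_red_mul, ord_red_inv, ord_red_zpow, ord_red_ξU, m]
  ring

/-- **the order of the first reduction of `u` at the node is `m` modulo `n`** -/
theorem ord_red_eq : d.Q1.ord (R1.red (u : R1.O)) =
    d.m + (n : ℤ) * d.Q1.ord (R1.red (d.FU : R1.O)) := by
  have h1 : u = d.gU * d.FU ^ (n : ℤ) := by rw [zpow_natCast, gU, inv_mul_cancel_right]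
  have h2 : d.Q1.ord (R1.red (u : R1.O)) =
      d.Q1.ord (R1.red ((d.gU * d.FU ^ (n : ℤ) : R1.Oˣ) : R1.O)) := by rw [← h1]
  rw [h2, ord_red_mul, ord_red_zpow, m]

/-- the set of the functions whose first reduction vanishes at the node -/
def q : Set FL := {y | ∀ h : y ∈ R1.O, R1.red ⟨y, h⟩ = 0 ∨ 0 < d.Q1.ord (R1.red ⟨y, h⟩)}

theorem glue_q : ∀ f ∈ d.S, f ∈ R2.O.nonunits → f ∈ d.q := fun f hf h2 h => d.glue f hf h2

theorem unit_not_mem_q (x : R1.Oˣ) (hx : d.Q1.ord (R1.red (x : R1.O)) = 0) :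
    (((x : R1.O)) : FL) ∉ d.q := by
  intro hq
  rcases hq (x : R1.O).2 with h0 | hpos
  · exact red_unit_ne_zero R1 x h0
  · have : d.Q1.ord (R1.red (x : R1.O)) = d.Q1.ord (R1.red ⟨((x : R1.O) : FL), (x : R1.O).2⟩) := rfl
    rw [← this, hx] at hpos
    exact lt_irrefl _ hpos

/-- **`g / ξ ^ m` is a unit of the second Gauss valuation** (the slope lemma) -/
theorem vU_two : UnitA R2.O ((((d.vU : R1.Oˣ) : R1.O)) : FL) := by
  refine Fermat.Agent.S44.Core.Slope.valuation_eq_one_of_unit_at_node R2.O d.S d.q d.glue_q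
    d.vU_mem d.vU_inv_mem (d.unit_not_mem_q d.vU d.ord_red_vU) ?_
  have h1 : ((((d.vU : R1.Oˣ) : R1.O)) : FL)⁻¹ = ((((d.vU⁻¹ : R1.Oˣ)) : R1.O) : FL) :=
    (coe_inv_unit R1 d.vU).symm
  rw [h1]
  refine d.unit_not_mem_q d.vU⁻¹ ?_
  rw [ord_red_inv, ord_red_vU, neg_zero]

/-- the factorisation of `u` at the node -/
theorem coe_eq : ((u : R1.O) : FL) =
    (((d.vU : R1.Oˣ) : R1.O) : FL) * d.ξ ^ d.m * (d.Fp / d.Fm) ^ n := by
  have hF0 : (d.Fp / d.Fm) ^ n ≠ 0 :=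
    pow_ne_zero _ (div_ne_zero d.Fp_one.ne_zero d.Fm_one.ne_zero)
  have hξ0 : d.ξ ^ d.m ≠ 0 := zpow_ne_zero _ d.ξ_ne
  rw [coe_vU]
  field_simp

variable (hϖ0 : ϖ0 ≠ 0)
include hϖ0

/-- the `ϖ0`-order of `Fp` at the second valuation -/
theorem hasOrd_Fp : HasOrd R2.O (algebraMap L FL ϖ0) d.Fp d.jp := by
  obtain ⟨β, hβ, hc⟩ := d.cp_eq
  have hϖ' : algebraMap L FL ϖ0 ≠ 0 := (map_ne_zero _).2 hϖ0
  have hc0 : algebraMap L FL d.cp ≠ 0 := (hasOrd_const R2 hϖ0 hβ hc).ne_zero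
  have h1 : d.Fp = algebraMap L FL d.cp * (d.Fp / algebraMap L FL d.cp) := by
    rw [mul_div_cancel₀ _ hc0]
  rw [h1]
  have h2 := (hasOrd_const R2 hϖ0 hβ hc).mul hϖ' (HasOrd.of_unit d.Fp_two)
  rwa [add_zero] at h2

/-- the `ϖ0`-order of `Fm` at the second valuation -/
theorem hasOrd_Fm : HasOrd R2.O (algebraMap L FL ϖ0) d.Fm d.jm := by
  obtain ⟨β, hβ, hc⟩ := d.cm_eq
  have hϖ' : algebraMap L FL ϖ0 ≠ 0 := (map_ne_zero _).2 hϖ0
  have hc0 : algebraMap L FL d.cm ≠ 0 := (hasOrd_const R2 hϖ0 hβ hc).ne_zero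
  have h1 : d.Fm = algebraMap L FL d.cm * (d.Fm / algebraMap L FL d.cm) := by
    rw [mul_div_cancel₀ _ hc0]
  rw [h1]
  have h2 := (hasOrd_const R2 hϖ0 hβ hc).mul hϖ' (HasOrd.of_unit d.Fm_two)
  rwa [add_zero] at h2

/-- the `ϖ0`-order of the coordinate at the second valuation -/
theorem hasOrd_ξ {E : ℕ} (hE : ∃ v, UnitA A v ∧ (l : L) = ϖ0 ^ E * v) :
    HasOrd R2.O (algebraMap L FL ϖ0) d.ξ ((d.w : ℤ) * E) := by
  obtain ⟨v, hv, hp⟩ := hE
  have hϖ' : algebraMap L FL ϖ0 ≠ 0 := (map_ne_zero _).2 hϖ0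
  have hpw : (l : L) ^ d.w = ϖ0 ^ ((d.w : ℤ) * E) * v ^ d.w := by
    rw [hp, mul_pow, ← pow_mul, mul_comm E d.w, ← zpow_natCast ϖ0 (d.w * E)]
    push_cast
    rfl
  have hvw : UnitA A (v ^ d.w) := by
    have := hv.zpow (d.w : ℤ)
    rwa [zpow_natCast] at this
  have h1 := hasOrd_const R2 hϖ0 hvw hpw
  rw [hasOrd_iff_val hϖ'] at h1 ⊢
  rw [d.ξ_val, h1]

/-- **the `ϖ0`-order of `u` at the second valuation: `m w E + n μ`** -/
theorem hasOrd_two {E : ℕ} (hE : ∃ v, UnitA A v ∧ (l : L) = ϖ0 ^ E * v) :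
    HasOrd R2.O (algebraMap L FL ϖ0) ((u : R1.O) : FL)
      (d.m * ((d.w : ℤ) * E) + (n : ℤ) * d.μ) := by
  have hϖ' : algebraMap L FL ϖ0 ≠ 0 := (map_ne_zero _).2 hϖ0
  rw [d.coe_eq]
  have h1 := ((HasOrd.of_unit (ϖ := algebraMap L FL ϖ0) d.vU_two).mul hϖ'
    ((d.hasOrd_ξ hϖ0 hE).zpow hϖ' d.m)).mul hϖ'
    (((d.hasOrd_Fp hϖ0).div hϖ' (d.hasOrd_Fm hϖ0)).pow hϖ' n)
  rw [zero_add] at h1
  exact h1

end NodeDatumN

/-! ### the export -/

section Exports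

variable {R1 : Branch A π FL F1} {R2 : Branch A π FL F2} {ϖ0 : L} {l n : ℕ} {u : R1.Oˣ}

/-- the comparison of two nodes -/
theorem delta_eq_delta (hϖ0 : ϖ0 ≠ 0) (hnon : ϖ0 ∈ A.nonunits) {E : ℕ}
    (hE : ∃ v, UnitA A v ∧ (l : L) = ϖ0 ^ E * v) (d d' : NodeDatumN R1 R2 ϖ0 l n u) :
    d.m * ((d.w : ℤ) * E) + (n : ℤ) * d.μ = d'.m * ((d'.w : ℤ) * E) + (n : ℤ) * d'.μ :=
  (d.hasOrd_two hϖ0 hE).unique ((map_ne_zero _).2 hϖ0) (const_val_lt R2 hnon)
    (d'.hasOrd_two hϖ0 hE)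

/-- **THE EXPORT MODULO `n`** (`l = ϖ0 ^ E * unit`, no hypothesis on the moments, no hypothesis
relating `n` and `l`). -/
theorem exists_const (hϖ0 : ϖ0 ≠ 0) (hnon : ϖ0 ∈ A.nonunits) {E : ℕ}
    (hE : ∃ v, UnitA A v ∧ (l : L) = ϖ0 ^ E * v) {ι : Type*}
    (d : ι → NodeDatumN R1 R2 ϖ0 l n u) :
    ∃ c : ZMod n, ∀ e, (((d e).w : ℕ) : ZMod n) * ((E : ℕ) : ZMod n) *
      ((((d e).Q1.ord (R1.red (u : R1.O)) : ℤ)) : ZMod n) = c := by
  classical
  by_cases hne : Nonempty ι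
  · obtain ⟨e0⟩ := hne
    refine ⟨(((d e0).w : ℕ) : ZMod n) * ((E : ℕ) : ZMod n) *
      ((((d e0).Q1.ord (R1.red (u : R1.O)) : ℤ)) : ZMod n), fun e => ?_⟩
    have h := delta_eq_delta hϖ0 hnon hE (d e) (d e0)
    have h2 := congrArg (fun z : ℤ => (z : ZMod n)) h
    simp only [Int.cast_add, Int.cast_mul, Int.cast_natCast, ZMod.natCast_self, zero_mul,
      add_zero] at h2
    rw [(d e).ord_red_eq, (d e0).ord_red_eq]
    push_cast
    rw [ZMod.natCast_self, zero_mul, add_zero, zero_mul, add_zero]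
    linear_combination h2
  · exact ⟨0, fun e => (hne ⟨e⟩).elim⟩

/-- **THE EXPORT MODULO `n` OVER THE INERTIA FIELD** (`l = ϖ0 * unit`). -/
theorem exists_const_one (hϖ0 : ϖ0 ≠ 0) (hnon : ϖ0 ∈ A.nonunits)
    (hE : ∃ v, UnitA A v ∧ (l : L) = ϖ0 * v) {ι : Type*}
    (d : ι → NodeDatumN R1 R2 ϖ0 l n u) :
    ∃ c : ZMod n, ∀ e, (((d e).w : ℕ) : ZMod n) *
      ((((d e).Q1.ord (R1.red (u : R1.O)) : ℤ)) : ZMod n) = c := by
  have hE' : ∃ v, UnitA A v ∧ (l : L) = ϖ0 ^ 1 * v := by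
    obtain ⟨v, hv, h⟩ := hE
    exact ⟨v, hv, by rw [pow_one]; exact h⟩
  obtain ⟨c, hc⟩ := exists_const hϖ0 hnon hE' d
  refine ⟨c, fun e => ?_⟩
  have h := hc e
  rwa [Nat.cast_one, mul_one] at h

end Exports

/-! ### the node datum from a tube function -/

section Tube

variable {R1 : Branch A π FL F1} {R2 : Branch A π FL F2} {Q1 : Place k F1} {Q2 : Place k F2}
  {tube : Set (Place L FL)} {ξ ζ : FL} {thick : A}

/-- **The node datum of the export from a tube function** (torsion order `n`, thickness `l ^ w`). -/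
theorem exists_nodeDatumN (hC : IsNodeCoord R1 R2 Q1 Q2 tube ξ ζ thick) {l n w : ℕ}
    (hthick : (thick : L) = (l : L) ^ w)
    (hglue : ∀ (h1 : R1.O) (h2 : R2.O), ((h1 : R1.O) : FL) = ((h2 : R2.O) : FL) →
      (∀ P : Place L FL, P.ord ((h1 : R1.O) : FL) < 0 → P ∉ tube) →
      ∃ γ : k, HasValue Q1 (R1.red h1) γ ∧ HasValue Q2 (R2.red h2) γ)
    {ϖ0 : L} (u : R1.Oˣ) (D : Divisor L FL)
    (hD : ∀ P ∈ tube, (n : ℤ) * D P = P.ord (((u : R1.O)) : FL))
    {G : FL} (hG0 : G ≠ 0) (hGD : ∀ P ∈ tube, P.ord G = D P) (hG1 : UnitA R1.O G)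
    {c : L} {j : ℤ} (hc : ∃ β, UnitA A β ∧ c = ϖ0 ^ j * β)
    (hG2 : UnitA R2.O (G / algebraMap L FL c)) :
    ∃ d : NodeDatumN R1 R2 ϖ0 l n u, d.Q1 = Q1 ∧ d.w = w ∧ d.μ = j := by
  obtain ⟨hξm, hξo⟩ := hC.ord1
  have hξS := mem_tubeRing_of_ord_eq_zero hC.unit_one hC.ord_eq_zero
  have hu1 : UnitA R1.O (((u : R1.O)) : FL) := unitA_coe R1 u
  have hGp : UnitA R1.O ((G / 1) ^ n) := by
    rw [div_one]
    have := hG1.zpow (n : ℤ)
    rwa [zpow_natCast] at this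
  have hg : UnitA R1.O ((((u : R1.O)) : FL) / (G / 1) ^ n) := hu1.div hGp
  have hg0 : ∀ P ∈ tube, P.ord ((((u : R1.O)) : FL) / (G / 1) ^ n) = 0 := by
    intro P hP
    have hpow : P.ord (G ^ n) = (n : ℤ) * P.ord G := by
      have := P.ord_zpow G (n : ℤ)
      rwa [zpow_natCast] at this
    rw [div_one, Fermat.Agent.S44.Core.TubeFactor.ord_div' P hu1.ne_zero (pow_ne_zero _ hG0),
      hpow, hGD P hP, ← hD P hP]
    ring
  have hgS := mem_tubeRing_of_ord_eq_zero hg hg0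
  refine ⟨{ Q1 := Q1, S := tubeRing R1 tube, ξ := ξ, w := w, Fp := G, Fm := 1, cp := c, cm := 1,
            jp := j, jm := 0,
            S_le := fun y hy => hy.1,
            glue := fun y hy h2 => glue_tubeRing hglue y hy h2,
            ξ_mem := hξS.1, ξ_inv_mem := hξS.2, ξ_ne := hC.ξ_ne, ξ_ord := hξo,
            ξ_val := by rw [hC.val_two, hthick],
            Fp_one := hG1, Fm_one := unitA_one, Fp_two := hG2,
            Fm_two := by rw [map_one, div_one]; exact unitA_one,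
            cp_eq := hc, cm_eq := ⟨1, unitA_one, by rw [zpow_zero, one_mul]⟩,
            g_mem := hgS.1, g_inv_mem := hgS.2 }, rfl, rfl, ?_⟩
  show j - 0 = j
  rw [sub_zero]

end Tube

end Fermat.Agent.S43.T1.Node.Datum
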