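/-
PROJECT R (S43), block T1, brick (N)_n, file Node/Main (helper19): **THE NODE EXPORT MODULO `n` AT
`X₀(M l)`**: for an `n`-torsion class `x` of `J₀(M l)` FIXED BY THE INERTIA GROUP of `A ∣ l`, the
products `w_e a_e(x)` (thickness times node order modulo `n`) DO NOT DEPEND ON THE NODE `e`.

The twin of `S44/X0/ExportInst.tameConst` with the torsion order `n` separated from the frame prime
`l` (no hypothesis relating `n` and `l`): chart frame `F : ChartFrame hA hlM`, `Y : NodeHyp F`, node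
frame `NF : NodeFrame F Y`, local count `hLC : HasLocalCount F Y` (all of main, frame-only):

* `exists_datum` : the node datum of `Node/Datum` at a node from a tube function;
* `nodeConst` : **(N)_n**. UNCONDITIONAL: representative from
  `S36/K0DescentX0.exists_invariant_kummer_X0` for the inertia group, constants of the inertia field
  have valuation in `v(l) ^ ℤ` (`S13/Local/Ram.exists_zpow_valuation_eq'`), tube functions over the
  inertia field from `S44/Core/TubeTame.exists_tubeFunction_sub`.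
* `nodeConst_frame` : the same with the frame, node hypotheses and node frame of main produced
  inside (`S44/X0/NodeFrameSeam.exists_frame_nodeFrame`), every thickness `≤ 12`.
-/
import Fermat.Agent.S43.T1.Node.Ord
import Fermat.Agent.S43.T1.Node.Datum
import Fermat.Agent.S44.X0.NodeInst
import Fermat.Agent.S44.X0.NodeFrameSeam
import Fermat.Agent.S44.Core.TubeTame
import Fermat.Agent.S44.Loc.Frame
import Fermat.Agent.S36.K0DescentX0

set_option autoImplicit false
set_option linter.unusedSectionVars false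
set_option linter.unusedVariables false
set_option linter.style.haveILetI false
set_option synthInstance.maxHeartbeats 400000

noncomputable section

namespace Fermat.Agent.S43.T1.Node.Main

open ModularCurve AlgebraicCurve IsLocalRing
open Fermat.Agent.S34.NodalDefs Fermat.Agent.S34.CoreZX0Datum
open Fermat.Agent.S33.X0.Frame
open Fermat.Agent.S44.Core.FrameHyp Fermat.Agent.S44.Core.TubeCount
open Fermat.Agent.S44.Core.Break Fermat.Agent.S44.Core.NodeFrame
open Fermat.Agent.S44.Core.NodeOrd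
open Fermat.Agent.S44.X0.FrameAll Fermat.Agent.S44.X0.NodeFrameDef Fermat.Agent.S44.X0.NodeInst
open Fermat.Agent.S44.Loc.Frame
open Fermat.Agent.S43.T1.Node.Ord Fermat.Agent.S43.T1.Node.Datum

local notation "Qbar" => AlgebraicClosure ℚ
local notation "GQ" => (AlgebraicClosure ℚ ≃ₐ[ℚ] AlgebraicClosure ℚ)

attribute [local instance 2000] Fermat.Agent.S34.EulerX0.algResFk

/-- local instance: principal divisors on `E` -/
local instance instPDBar (N : ℕ) [NeZero N] :
    HasPrincipalDivisors Qbar ↥(modularFunctionFieldBar N) :=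
  Fermat.Agent.S18.A.Instances.hasPrincipalDivisors_bar N

local instance instNeZeroMul (M q : ℕ) [NeZero M] [NeZero q] : NeZero (M * q) :=
  ⟨Nat.mul_ne_zero (NeZero.ne M) (NeZero.ne q)⟩

variable {l : ℕ} [hl : Fact l.Prime] {M : ℕ} [NeZero M] {A : ValuationSubring Qbar} [NeZero l]
variable {hA : A.LiesOverPrime l} {hlM : ¬ l ∣ M}

/-! ### the constants of the inertia field -/

include hA in
/-- **a non-zero constant fixed by the inertia group of `A ∣ l` is `l ^ j * unit`** -/
theorem exists_pow_of_fixed {c : Qbar} (hc : ∀ τ ∈ A.inertiaSubgroupIn ℚ, τ c = c)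
    (hc0 : c ≠ 0) : ∃ (j : ℤ) (β : Qbar), UnitA A β ∧ c = ((l : ℕ) : Qbar) ^ j * β := by
  have hl0 : ((l : ℕ) : Qbar) ≠ 0 := Nat.cast_ne_zero.2 hl.out.ne_zero
  obtain ⟨j, hj⟩ := Fermat.Agent.S13.Local.Ram.exists_zpow_valuation_eq' hl.out hA hc0 hc
  refine ⟨j, c / ((l : ℕ) : Qbar) ^ j, ?_, ?_⟩
  · rw [UnitA, map_div₀, map_zpow₀, hj]
    exact div_self (zpow_ne_zero _ ((Valuation.ne_zero_iff _).2 hl0))
  · field_simp

/-! ### the node datum at a node of the frame -/

/-- **the node datum of the export at a node of the frame**, from a tube function `G` of `D` -/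
theorem exists_datum (F : ChartFrame hA hlM) (Y : NodeHyp F) (NF : NodeFrame F Y)
    (e : {b // b ∈ F.X.S}) {n : ℕ} {ϖ0 : Qbar} (u : (F.X.N.R1.O)ˣ)
    (D : Divisor Qbar ↥(modularFunctionFieldBar (M * l)))
    (hD : ∀ P : Place Qbar ↥(modularFunctionFieldBar (M * l)),
      (n : ℤ) * D P = P.ord (((u : F.X.N.R1.O)) : ↥(modularFunctionFieldBar (M * l))))
    {G : ↥(modularFunctionFieldBar (M * l))} (hG0 : G ≠ 0)
    (hGD : ∀ P ∈ Y.tube e, P.ord G = D P) (hG1 : UnitA F.X.N.R1.O G)
    {c : Qbar} {j : ℤ} (hc : ∃ β, UnitA A β ∧ c = ϖ0 ^ j * β)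
    (hG2 : UnitA F.X.N.R2.O (G / algebraMap Qbar ↥(modularFunctionFieldBar (M * l)) c)) :
    ∃ d : NodeDatumN F.X.N.R1.toBranch F.X.N.R2.toBranch ϖ0 l n u,
      d.Q1 = F.X.N.e1 e ∧ d.w = NF.w e ∧ d.μ = j :=
  exists_nodeDatumN (NF.coord e) (coe_thickPow A l (NF.w e))
    (fun h1 h2 h => Y.glue_node h1 h2 h e) u D (fun P _ => hD P) hG0 hGD hG1 hc hG2

/-! ### the export -/

set_option maxHeartbeats 2000000 in
include hA in
/-- **(N)_n : THE NODE EXPORT MODULO `n`.**  An `n`-torsion class of `J₀(M l)` fixed by the inertia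
group of `A ∣ l` has node orders `a` modulo `n` with `w_e a_e = c` for all nodes `e`. -/
theorem nodeConst (F : ChartFrame hA hlM) (Y : NodeHyp F) (NF : NodeFrame F Y)
    (hLC : HasLocalCount F Y) {n : ℕ} (x : JZero (M * l)) (hnx : n • x = 0)
    (hfix : ∀ τ ∈ A.inertiaSubgroupIn ℚ, τ • x = x) :
    ∃ a : Node F → ZMod n, HasNodeOrdN F n x a ∧
      ∃ c : ZMod n, ∀ e, ((NF.w e : ℕ) : ZMod n) * a e = c := by
  have hnx' : ((n : ℕ) : ℤ) • x = 0 := by rw [natCast_zsmul]; exact hnx
  have hl0 : ((l : ℕ) : Qbar) ≠ 0 := Nat.cast_ne_zero.2 hl.out.ne_zero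
  have hlnon : ((l : ℕ) : Qbar) ∈ A.nonunits :=
    (A.mem_nonunits_iff).2 (Fermat.Agent.S13.Local.Ram.valuation_natCast_lt_one hA)
  obtain ⟨D, f, hDx, hf0, hford, hDinv, -, -⟩ :=
    Fermat.Agent.S36.K0DescentX0.exists_invariant_kummer_X0 (M * l) (A.inertiaSubgroupIn ℚ) x
      hfix hnx'
  obtain ⟨c0, hc0, u, hfu⟩ := F.X.N.R1.exists_const_mul_unit f hf0
  have hu0 := Fermat.Agent.S34.NodalDisc.coe_unit_ne_zero F.X.N.R1.toBranch u
  have hD : ∀ P : Place Qbar ↥(modularFunctionFieldBar (M * l)),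
      (n : ℤ) * (D : Divisor Qbar ↥(modularFunctionFieldBar (M * l))) P =
        P.ord (((u : F.X.N.R1.O)) : ↥(modularFunctionFieldBar (M * l))) := by
    intro P
    have h1 := hford P
    have hcF : algebraMap Qbar ↥(modularFunctionFieldBar (M * l)) c0 ≠ 0 :=
      (map_ne_zero _).mpr hc0
    rw [hfu, P.ord_mul hcF hu0, Fermat.Agent.S34.KummerZ.ord_algebraMap P hc0, zero_add] at h1
    exact h1.symm
  refine ⟨fun e => (((F.X.N.e1 e).ord (F.X.N.R1.red (u : F.X.N.R1.O)) : ℤ) : ZMod n),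
    ⟨D, u, hDx, hD, fun e => rfl⟩, ?_⟩
  -- the node data over the inertia field
  have hdat : ∀ e : {b // b ∈ F.X.S},
      ∃ d : NodeDatumN F.X.N.R1.toBranch F.X.N.R2.toBranch ((l : ℕ) : Qbar) l n u,
        d.Q1 = F.X.N.e1 e ∧ d.w = NF.w e := by
    intro e
    obtain ⟨G, hG0, hGD, hG1, c, hcK, hc0', hG2⟩ :=
      Fermat.Agent.S44.Core.TubeTame.exists_tubeFunction_sub (fixF (A.inertiaSubgroupIn ℚ))
        (NF.coord e) (hLC.node e) (commens (hA := hA)) F.deg_eq_one
        (lifts (M := M) (p := l) (A.inertiaSubgroupIn ℚ))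
        (fun a ha => mem_fixF.2 fun τ' hτ' => by
          have h1 := ha _ (mem_lifts.mpr ⟨τ', hτ', rfl⟩)
          rw [Fermat.Agent.S19.SymmX0.baseAut_arithmeticGalois_apply] at h1
          exact h1)
        (fun g' hg' => by
          obtain ⟨τ', hτ', rfl⟩ := mem_lifts.mp hg'
          exact NF.fixed e τ' hτ')
        (fun g' hg' P => by
          obtain ⟨τ', hτ', rfl⟩ := mem_lifts.mp hg'
          exact Y.smul_mem_tube_iff hτ' e P)
        (D : Divisor Qbar ↥(modularFunctionFieldBar (M * l)))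
        (fun g' hg' => by
          obtain ⟨τ', hτ', rfl⟩ := mem_lifts.mp hg'
          exact hDinv τ' hτ')
    obtain ⟨j, β, hβ, hcj⟩ := exists_pow_of_fixed (hA := hA) (mem_fixF.1 hcK) hc0'
    obtain ⟨d, h1, h2, -⟩ := exists_datum F Y NF e u
      (D : Divisor Qbar ↥(modularFunctionFieldBar (M * l))) hD hG0 hGD hG1 ⟨β, hβ, hcj⟩ hG2
    exact ⟨d, h1, h2⟩
  choose d hd1 hd2 using hdat
  obtain ⟨c, hc⟩ := exists_const_one hl0 hlnon
    ⟨1, unitA_one, by rw [mul_one]⟩ d
  refine ⟨c, fun e => ?_⟩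
  have h := hc e
  rw [hd1 e, hd2 e] at h
  exact h

/-- **(N)_n with the frame of main produced inside**: there is a chart frame with node hypotheses,
standard reductions, local count and a node frame of thickness `≤ 12` at every node such that
every `n`-torsion class fixed by the inertia group has `w_e a_e` independent of the node, for EVERY
torsion order `n`. -/
theorem nodeConst_frame (hA : A.LiesOverPrime l) (hlM : ¬ l ∣ M) :
    ∃ (F : ChartFrame hA hlM) (Y : NodeHyp F) (NF : NodeFrame F Y), HasLocalCount F Y ∧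
      (∀ e, NF.w e ≤ 12) ∧
      ∀ (n : ℕ) (x : JZero (M * l)), n • x = 0 →
        (∀ τ ∈ A.inertiaSubgroupIn ℚ, τ • x = x) →
        ∃ a : Node F → ZMod n, HasNodeOrdN F n x a ∧
          ∃ c : ZMod n, ∀ e, ((NF.w e : ℕ) : ZMod n) * a e = c := by
  obtain ⟨F, Y, -, -, hLC, -, NF, hNF⟩ :=
    Fermat.Agent.S44.X0.NodeFrameSeam.exists_frame_nodeFrame hA hlM
  exact ⟨F, Y, NF, hLC, hNF, fun n x hnx hfix => nodeConst (hA := hA) F Y NF hLC x hnx hfix⟩

end Fermat.Agent.S43.T1.Node.Main

end
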