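/-
PROJECT R (S43), block T1, brick (N)_n, file Node/Bridge (helper19): THE BRIDGE FROM `T1/Node/**` TO
THE LITERALS OF THE LEADER'S SEAM `T1/Seam.lean` (helper18).

* `hasNodeOrdN_iff` : the seam's `HasNodeOrdN` and `Node/Ord.HasNodeOrdN` are the same proposition
  (`Iff.rfl`: the two definitions have the same body);
* `tameConstN` : **`Seam.TameConstN F n NF.w`** for every chart frame `F` with node hypotheses `Y`,
  node frame `NF` and local count, at EVERY torsion order `n` (= `Node/Main.nodeConst`);
* `tameConstN_std` : the same for a `Seam.StdFrame`.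
-/
import Fermat.Agent.S43.T1.Seam
import Fermat.Agent.S43.T1.Node.Main

set_option autoImplicit false
set_option linter.unusedSectionVars false
set_option linter.unusedVariables false
set_option linter.style.haveILetI false
set_option synthInstance.maxHeartbeats 400000

noncomputable section

namespace Fermat.Agent.S43.T1.Node.Bridge

open ModularCurve AlgebraicCurve IsLocalRing
open Fermat.Agent.S33.X0.Frame
open Fermat.Agent.S44.Core.FrameHyp Fermat.Agent.S44.Core.NodeOrd
open Fermat.Agent.S44.X0.FrameAll Fermat.Agent.S44.X0.NodeFrameDef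

local notation "Qbar" => AlgebraicClosure ℚ

variable {q : ℕ} [hq : Fact q.Prime] {M : ℕ} [NeZero M] {A : ValuationSubring Qbar} [NeZero q]
variable {hA : A.LiesOverPrime q} {hqM : ¬ q ∣ M}

local instance instNeZeroMul : NeZero (M * q) :=
  ⟨Nat.mul_ne_zero (NeZero.ne M) (NeZero.ne q)⟩

/-- the seam's node orders are those of `Node/Ord` -/
theorem hasNodeOrdN_iff (F : ChartFrame hA hqM) (n : ℕ) (x : JZero (M * q))
    (a : Node F → ZMod n) :
    Fermat.Agent.S43.T1.Seam.HasNodeOrdN F n x a ↔
      Fermat.Agent.S43.T1.Node.Ord.HasNodeOrdN F n x a := Iff.rfl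

/-- **(N)_n in the seam's literal**: `TameConstN` holds for every frame with a node frame and the
local count, at every torsion order `n`. -/
theorem tameConstN (F : ChartFrame hA hqM) (Y : NodeHyp F) (NF : NodeFrame F Y)
    (hLC : HasLocalCount F Y) (n : ℕ) : Fermat.Agent.S43.T1.Seam.TameConstN F n NF.w := by
  intro x hnx hfix
  obtain ⟨a, ha, c, hc⟩ := Fermat.Agent.S43.T1.Node.Main.nodeConst F Y NF hLC x hnx hfix
  exact ⟨a, (hasNodeOrdN_iff F n x a).mpr ha, c, hc⟩

/-- (N)_n for a standard frame of the seam -/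
theorem tameConstN_std {F : ChartFrame hA hqM} (SF : Fermat.Agent.S43.T1.Seam.StdFrame F) (n : ℕ) :
    Fermat.Agent.S43.T1.Seam.TameConstN F n SF.NF.w :=
  tameConstN F SF.Y SF.NF SF.lc n

end Fermat.Agent.S43.T1.Node.Bridge

end
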